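import Fermat.Agent.MAZ.Klein.Main
import Fermat.Agent.MAZ.Ell.Match
import Fermat.Agent.MAZ.Ell.Basis
import Fermat.Agent.MAZ.Ell.Unif
import Fermat.Agent.MAZ.Ell.Curve

/-!
# MAZ / Dict / [D1]  the analytic dictionary:  `(E, Q) ↦ τ` with `j(τ) = j(E)`, `Δ(τ)/Δ(Nτ) = Λ(E, Q)`

`Λ(E,Q) := N¹² (∏_{k=1}^{N-1} Ψ(x(kQ)))² / Δ_E^{N-1}`,  `Ψ = 4x³ + b₂x² + 2b₄x + b₆`  (`Ell.lam`).

PROOF of `exists_tau_of_seq`.  `Ell.exists_periodPair` : `L` with `g₂ = a`, `g₃ = b`.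
`Ell.exists_torsion_param` (+ `Ell.disc_ne_zero`): `z`, `N z ∈ Λ`, `k z ∉ Λ`, `℘(kz) = X k`.
`Ell.exists_tau_of_torsion`: `Λ = c(ℤ+ℤτ)`, `z = c d/N`, `N ∤ d`.
ODE (`PeriodPair.derivWeierstrassP_sq`): `4 X_k³ - a X_k - b = ℘'_L(kz)² = c⁻⁶ ℘'_τ(kd/N)²`
(`Ell.wp'_congr`, `Ell.wp'_smulPair`), `∏_k ℘'_τ(kd/N) = ∏_k ℘'_τ(k/N)` (`k ↦ kd mod N` permutes, `Klein.eN_congr`),
`a³ - 27b² = c⁻¹² (2π)¹² Δ(τ)` (`Ell.g₂_smulPair`, .., `Ell.disc_tauPair`), `Klein.klein`.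
`jfun τ`: `Ell.jfun_eq_of_tauPair` and homogeneity.
-/

set_option autoImplicit false
set_option linter.unusedSectionVars false

open UpperHalfPlane ModularForm
open scoped Real PeriodPair

namespace Fermat.Agent.MAZ.Dict

open Fermat.Agent.S24 Fermat.Agent.S05 Fermat.Agent.MAZ.Ell

local notation "Δ" => ModularForm.discriminant

theorem exists_tau_of_seq (N : ℕ) [NeZero N] (hN : N.Prime) (h2 : N ≠ 2) (a b : ℂ) (ha : a ≠ 0)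
    (hb : b ≠ 0) (h : a ^ 3 - 27 * b ^ 2 ≠ 0) (X : ℕ → ℂ) (hX : IsTorsionSeq N a b X) :
    ∃ τ : ℍ, jfun τ = 1728 * a ^ 3 / (a ^ 3 - 27 * b ^ 2) ∧
      Δ τ / Δ (scal N τ) =
        (N : ℂ) ^ 12 * (∏ k ∈ Finset.Ico 1 N, (4 * X k ^ 3 - a * X k - b)) ^ 2 /
          (a ^ 3 - 27 * b ^ 2) ^ (N - 1) := by
  obtain ⟨L, rfl, rfl⟩ := exists_periodPair a b ha hb h
  have hN3 : 3 ≤ N := by
    have := hN.two_le
    omega
  obtain ⟨z, hNz, hz⟩ := exists_torsion_param L h N hN3 X hX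
  have hz1 : z ∉ L.lattice := by
    have := (hz 1 le_rfl (by omega)).1
    simpa using this
  obtain ⟨c, hc, τ, d, hd, hL, hzc⟩ := exists_tau_of_torsion L N hN hz1 hNz
  have hg2 : L.g₂ = (c ^ 4)⁻¹ * (tauPair τ).g₂ := by rw [g₂_congr hL, g₂_smulPair]
  have hg3 : L.g₃ = (c ^ 6)⁻¹ * (tauPair τ).g₃ := by rw [g₃_congr hL, g₃_smulPair]
  have hdisc : L.g₂ ^ 3 - 27 * L.g₃ ^ 2 = (c ^ 12)⁻¹ * ((2 * (π : ℂ)) ^ 12 * Δ τ) := by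
    rw [← disc_tauPair, hg2, hg3]
    field_simp
  have hΔτ : Δ τ ≠ 0 := discriminant_ne_zero τ
  have hΔN : Δ (scal N τ) ≠ 0 := discriminant_ne_zero _
  have h2π : (2 * (π : ℂ)) ≠ 0 := mul_ne_zero two_ne_zero (by exact_mod_cast Real.pi_ne_zero)
  refine ⟨τ, ?_, ?_⟩
  · rw [jfun_eq_of_tauPair, hdisc, disc_tauPair, hg2]
    field_simp
  · set P := ∏ k ∈ Finset.Ico 1 N, ℘'[tauPair τ] ((k : ℂ) / N) with hP
    have hterm : ∀ k ∈ Finset.Ico 1 N, 4 * X k ^ 3 - L.g₂ * X k - L.g₃ =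
        ((c ^ 3)⁻¹ * Klein.eN N 0 ((k : ℤ) * d) τ) ^ 2 := by
      intro k hk
      rw [Finset.mem_Ico] at hk
      obtain ⟨hk1, hk2⟩ := hz k hk.1 (by omega)
      rw [← hk2, ← L.derivWeierstrassP_sq _ hk1, wp'_congr hL]
      have e : (k : ℂ) * z = c * (((k : ℂ) * d) / N) := by rw [hzc]; ring
      rw [e, wp'_smulPair]
      unfold Klein.eN
      congr 3
      push_cast
      ring
    have hperm : ∏ k ∈ Finset.Ico 1 N, Klein.eN N 0 ((k : ℤ) * d) τ = P := by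
      rw [Klein.prod_Ico_mul_perm N hN (fun b => Klein.eN N 0 b τ)
        (fun a a' h => Klein.eN_congr N (by simp) h τ) d hd, hP]
      refine Finset.prod_congr rfl fun k _ => ?_
      unfold Klein.eN
      simp
    have hprod : ∏ k ∈ Finset.Ico 1 N, (4 * X k ^ 3 - L.g₂ * X k - L.g₃) =
        ((c ^ 3)⁻¹ ^ (N - 1) * P) ^ 2 := by
      rw [Finset.prod_congr rfl hterm, Finset.prod_pow, Finset.prod_mul_distrib, Finset.prod_const,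
        Nat.card_Ico, hperm]
    have hklein := Klein.klein N hN h2 τ
    rw [← hP] at hklein
    rw [hprod, hdisc]
    obtain ⟨n, hn⟩ : ∃ n, N = n + 1 := ⟨N - 1, by omega⟩
    have hn1 : N - 1 = n := by omega
    rw [hn1] at hklein ⊢
    have hk2 : (N : ℂ) ^ 12 * P ^ 4 * Δ (scal N τ) = (2 * (π : ℂ)) ^ (12 * n) * (Δ τ ^ n * Δ τ) := by
      rw [hklein]
      conv_lhs => rw [hn, pow_succ]
    rw [div_eq_div_iff hΔN (pow_ne_zero _ (mul_ne_zero (inv_ne_zero (pow_ne_zero _ hc))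
      (mul_ne_zero (pow_ne_zero _ h2π) hΔτ)))]
    have e1 : ((c ^ 12)⁻¹ * ((2 * (π : ℂ)) ^ 12 * Δ τ)) ^ n =
        ((c ^ 3)⁻¹ ^ n) ^ 4 * ((2 * (π : ℂ)) ^ (12 * n) * Δ τ ^ n) := by
      rw [mul_pow, mul_pow, ← pow_mul (2 * (π : ℂ)) 12 n, inv_pow, inv_pow, inv_pow, ← pow_mul,
        ← pow_mul, ← pow_mul]
      congr 3
      ring
    rw [e1]
    calc Δ τ * (((c ^ 3)⁻¹ ^ n) ^ 4 * ((2 * (π : ℂ)) ^ (12 * n) * Δ τ ^ n))
        = ((c ^ 3)⁻¹ ^ n) ^ 4 * ((2 * (π : ℂ)) ^ (12 * n) * (Δ τ ^ n * Δ τ)) := by ring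
      _ = ((c ^ 3)⁻¹ ^ n) ^ 4 * ((N : ℂ) ^ 12 * P ^ 4 * Δ (scal N τ)) := by rw [hk2]
      _ = _ := by ring

/-- **[D1]** -/
theorem exists_tau_of_point {F : Type*} [Field F] [CharZero F] [DecidableEq F] (ι : F →+* ℂ)
    (W : WeierstrassCurve.Affine F) (N : ℕ) [NeZero N] (hN : N.Prime) (h2 : N ≠ 2)
    (Q : W.Point) (hQ : addOrderOf Q = N) (hc₄ : W.c₄ ≠ 0) (hc₆ : W.c₆ ≠ 0) (hΔ : W.Δ ≠ 0) :
    ∃ τ : ℍ, jfun τ = ι (W.c₄ ^ 3 / W.Δ) ∧ Δ τ / Δ (scal N τ) = ι (lam W N Q) := by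
  have hN3 : 3 ≤ N := by
    have := hN.two_le
    omega
  have hseq := (isTorsionSeq_of_point N hN3 Q hQ).map ι
  have hdisc : ι (W.c₄ / 12) ^ 3 - 27 * ι (W.c₆ / 216) ^ 2 = ι W.Δ := by
    rw [← disc_eq (W := W)]
    simp [map_ofNat]
  have hιΔ : ι W.Δ ≠ 0 := (map_ne_zero ι).2 hΔ
  obtain ⟨τ, h1, h3⟩ := exists_tau_of_seq N hN h2 (ι (W.c₄ / 12)) (ι (W.c₆ / 216))
    ((map_ne_zero ι).2 (div_ne_zero hc₄ (by norm_num)))
    ((map_ne_zero ι).2 (div_ne_zero hc₆ (by norm_num))) (by rw [hdisc]; exact hιΔ) _ hseq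
  refine ⟨τ, ?_, ?_⟩
  · rw [h1, hdisc]
    simp only [map_div₀, map_pow, map_ofNat]
    field_simp
    norm_num
    ring
  · have hterm : ∀ k : ℕ, 4 * ι (xc (k • Q) + W.b₂ / 12) ^ 3 -
        ι (W.c₄ / 12) * ι (xc (k • Q) + W.b₂ / 12) - ι (W.c₆ / 216) = ι (psiX W (xc (k • Q))) := by
      intro k
      rw [← psiX_eq (W := W)]
      simp only [map_sub, map_mul, map_pow, map_ofNat]
    rw [h3, hdisc, Finset.prod_congr rfl (fun k _ => hterm k), lam, map_div₀, map_mul, map_pow,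
      map_pow, map_pow, map_prod, map_natCast]

end Fermat.Agent.MAZ.Dict
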