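import Fermat.Agent.MAZ.Dict.Cusps
import Fermat.Agent.RR.Modular
import Fermat.Agent.RED.S37.Main
import Fermat.Agent.S18
import Fermat.Agent.GAL.HeckeComm

/-!
# MAZ / Dict / [C]  the cuspidal class `κ = [P₀ - P_∞] ∈ J₀(N)(ℚ)`

* `ptSub x y = [x - y]`.
* `nsmul_cuspClass` : `(N-1)(P₀ - P_∞) = div u` (`ord_Pinf_uF`, `ord_P0_uF`, `ord_uF_of_finite`, `eq_cusp_of_ord_jF_neg`).
* `genusFormula_pos` : `N` prime: `ψ(N) = N+1`, `cuspCount N = 2`, `ν₂, ν₃ ≤ 2` (roots of a quadratic polynomial in the field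
  `ZMod N`), so `g ≥ (N+1)/12 - 7/6 > 0` for `N > 13`;  `N = 11`: `ν₂ = ν₃ = 0` (`decide`).
* `cuspClass_ne_zero` : if `P₀ - P_∞ = div f` then `1, f⁻¹.., ` precisely `g := f⁻¹`or `f` has a simple pole at one point `P` and no other
  pole; `1, g, .., gⁿ ∈ L(nP)` are linearly independent (distinct orders at `P`), so `ℓ(nP) ≥ n + 1`; by
  `IsSepParam.exists_riemann` `ℓ(nP) = n + 1 - gR` for `n` large: `gR ≤ 0`, against `RR.gR_FN` and `genusFormula_pos`.
* `smul_ptSub`, `smul_cuspClass` : `SemilinearAut.pic0_smul_mk`, `SemilinearAut.smul_single`, `smul_Pinf`, `smul_P0`.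
* `hecke_of_rational_torsion` (**[CUSP]**, no computation with cusps): `z` rational, `r^n z = 0`, `q ∤ r N` prime.  Let `A ∣ q`,
  `red := reductionModL A (N * aux q) ∘ Bstar N (aux q) _`.  `RED.reduction_hecke`: `red (T_q z) = φ • red z + q • φ⁻¹ • red z`;
  `RED.reductionModL_smul` + `RED.Bstar_smul` for a Frobenius element `σ₀` (`S54.exists_isFrobeniusAt_of_liesOverPrime`, as in
  `RED/S37/Main.lean`) and `σ₀ • z = z` give `φ • red z = red z`.  So `red (T_q z - (1+q) z) = 0`; this element is killed by `r^n`,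
  `q ∤ r^n`: `S18.result` at level `N * aux q` and `RED.Bstar_eq_zero_of_torsion` give `T_q z = (1+q) z`.
-/

set_option autoImplicit false

open AlgebraicCurve ModularCurve

namespace Fermat.Agent.MAZ.Dict

open Fermat.Agent.S24
open Fermat.Agent.RED hiding Kb

noncomputable section

variable (N : ℕ) [NeZero N]

theorem deg_place (v : Place Kb (FN N)) : v.deg = 1 := (Desc.isSepParam_jF N).deg_eq_one v

/-- the class `[x - y]`. -/
def ptSub (x y : Place Kb (FN N)) : JZero N :=
  Pic0.mk ⟨Finsupp.single x 1 - Finsupp.single y 1, by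
    rw [Divisor.mem_degZero, map_sub, Divisor.degree_single, Divisor.degree_single, deg_place,
      deg_place, sub_self]⟩

theorem ptSub_add (x y z : Place Kb (FN N)) : ptSub N x y + ptSub N y z = ptSub N x z := by
  unfold ptSub
  rw [← Pic0.mk_add]
  congr 1
  apply Subtype.ext
  show (Finsupp.single x 1 - Finsupp.single y 1 : Divisor Kb (FN N)) +
    (Finsupp.single y 1 - Finsupp.single z 1) = Finsupp.single x 1 - Finsupp.single z 1
  abel

theorem smul_ptSub (σ : Kb ≃ₐ[ℚ] Kb) (x y : Place Kb (FN N)) :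
    σ • ptSub N x y = ptSub N (arithmeticGalois (modularFunctionFieldFull N) σ • x)
      (arithmeticGalois (modularFunctionFieldFull N) σ • y) := by
  rw [galois_smul_pic0_def]
  unfold ptSub
  rw [SemilinearAut.pic0_smul_mk]
  congr 1
  apply Subtype.ext
  rw [SemilinearAut.coe_degZeroSMulHom]
  show arithmeticGalois (modularFunctionFieldFull N) σ •
    (Finsupp.single x 1 - Finsupp.single y 1 : Divisor Kb (FN N)) = _
  rw [smul_sub, SemilinearAut.smul_single, SemilinearAut.smul_single]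

/-- `κ = [P₀ - P_∞]`. -/
def cuspClass (hN : N.Prime) : JZero N := ptSub N (P0 N hN) (Pinf N)

theorem nsmul_cuspClass (hN : N.Prime) : (N - 1) • cuspClass N hN = 0 := by
  classical
  unfold cuspClass ptSub
  rw [← TorsES.mk_nsmul', TorsES.mk_eq_zero_iff]
  refine ⟨uF N hN, uF_ne_zero N hN, fun v => ?_⟩
  show ((N - 1) • (Finsupp.single (P0 N hN) 1 - Finsupp.single (Pinf N) 1 :
    Divisor Kb (FN N))) v = _
  have hN1 : ((N - 1 : ℕ) : ℤ) = (N : ℤ) - 1 := by
    rw [Nat.cast_sub hN.one_lt.le, Nat.cast_one]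
  rw [Finsupp.smul_apply, Finsupp.sub_apply, nsmul_eq_mul, hN1]
  by_cases h1 : v = Pinf N
  · subst h1
    rw [Finsupp.single_eq_same, Finsupp.single_eq_of_ne (P0_ne_Pinf N hN).symm, ord_Pinf_uF]
    ring
  · by_cases h2 : v = P0 N hN
    · subst h2
      rw [Finsupp.single_eq_same, Finsupp.single_eq_of_ne h1, ord_P0_uF]
      ring
    · rw [Finsupp.single_eq_of_ne h1, Finsupp.single_eq_of_ne h2, ord_uF_of_finite N hN]
      · ring
      · by_contra hneg
        rcases eq_cusp_of_ord_jF_neg N hN (not_le.1 hneg) with h | h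
        · exact h1 h
        · exact h2 h

theorem smul_cuspClass (hN : N.Prime) (σ : Kb ≃ₐ[ℚ] Kb) : σ • cuspClass N hN = cuspClass N hN := by
  unfold cuspClass
  rw [smul_ptSub, smul_P0, smul_Pinf]

namespace CuspAux

theorem dedekindPsi_prime {N : ℕ} (hN : N.Prime) : dedekindPsi N = N + 1 := by
  unfold dedekindPsi
  rw [hN.divisors, Finset.filter_true_of_mem, Finset.sum_pair hN.one_lt.ne, Nat.div_one,
    Nat.div_self hN.pos]
  intro d hd
  rcases Finset.mem_insert.1 hd with rfl | hd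
  · exact squarefree_one
  · rw [Finset.mem_singleton.1 hd]
    exact hN.prime.squarefree

theorem cuspCount_prime {N : ℕ} (hN : N.Prime) : cuspCount N = 2 := by
  unfold cuspCount
  rw [hN.divisors, Finset.sum_pair hN.one_lt.ne, Nat.div_one, Nat.div_self hN.pos]
  simp

theorem card_roots_le {k : Type*} [Field k] (P : Polynomial k) (hP : P ≠ 0) :
    Nat.card {x : k // P.eval x = 0} ≤ P.natDegree := by
  classical
  have h1 : {x : k | P.eval x = 0} = ↑P.roots.toFinset := by
    ext x
    simp [hP]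
  have h2 : Nat.card {x : k // P.eval x = 0} = P.roots.toFinset.card := by
    show Nat.card ↥{x : k | P.eval x = 0} = _
    rw [h1, Nat.card_coe_set_eq, Set.ncard_coe_finset]
  rw [h2]
  exact (Multiset.toFinset_card_le _).trans (Polynomial.card_roots' P)

theorem nuTwo_le {N : ℕ} (hN : N.Prime) : nuTwo N ≤ 2 := by
  have : Fact N.Prime := ⟨hN⟩
  have hd : (Polynomial.X ^ 2 + 1 : Polynomial (ZMod N)).natDegree = 2 := by
    compute_degree!
  have h0 : (Polynomial.X ^ 2 + 1 : Polynomial (ZMod N)) ≠ 0 := by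
    intro h
    rw [h] at hd
    simp at hd
  have := card_roots_le _ h0
  rw [hd] at this
  simpa [nuTwo] using this

theorem nuThree_le {N : ℕ} (hN : N.Prime) : nuThree N ≤ 2 := by
  have : Fact N.Prime := ⟨hN⟩
  have hd : (Polynomial.X ^ 2 + Polynomial.X + 1 : Polynomial (ZMod N)).natDegree = 2 := by
    compute_degree!
  have h0 : (Polynomial.X ^ 2 + Polynomial.X + 1 : Polynomial (ZMod N)) ≠ 0 := by
    intro h
    rw [h] at hd
    simp at hd
  have := card_roots_le _ h0
  rw [hd] at this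
  simpa [nuThree] using this

theorem nuTwo_eleven : nuTwo 11 = 0 := by
  unfold nuTwo
  rw [Nat.card_eq_zero]
  left
  exact ⟨fun x => absurd x.2 ((by decide : ∀ x : ZMod 11, x ^ 2 + 1 ≠ 0) x.1)⟩

theorem nuThree_eleven : nuThree 11 = 0 := by
  unfold nuThree
  rw [Nat.card_eq_zero]
  left
  exact ⟨fun x => absurd x.2 ((by decide : ∀ x : ZMod 11, x ^ 2 + x + 1 ≠ 0) x.1)⟩

theorem nsmul_sub_eq_zero {G : Type*} [AddCommGroup G] {t z : G} {m : ℕ} (k : ℕ)
    (ht : m • t = 0) (hz : m • z = 0) : m • (t - k • z) = 0 := by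
  rw [nsmul_sub, ht, nsmul_left_comm, hz, nsmul_zero, sub_zero]

theorem map_sub_eq_zero {G H : Type*} [AddCommGroup G] [AddCommGroup H] (red : G →+ H) (t z : G)
    (q : ℕ) (h : red t = red z + q • red z) : red (t - (1 + q) • z) = 0 := by
  rw [map_sub, map_nsmul, h, add_smul, one_smul, sub_self]

theorem map_nsmul_eq_zero {G H : Type*} [AddCommGroup G] [AddCommGroup H] (f : G →+ H) {z : G}
    {m : ℕ} (hz : m • z = 0) : m • f z = 0 := by
  rw [← map_nsmul, hz, map_zero]

end CuspAux

omit [NeZero N] in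
theorem genusFormula_pos (hN : N.Prime) (hN' : N ∉ ({2, 3, 5, 7, 13} : Finset ℕ)) :
    0 < genusFormula N := by
  unfold genusFormula
  rw [CuspAux.dedekindPsi_prime hN, CuspAux.cuspCount_prime hN]
  by_cases h11 : N = 11
  · subst h11
    rw [CuspAux.nuTwo_eleven, CuspAux.nuThree_eleven]
    norm_num
  · have h14 : 14 ≤ N := by
      by_contra hlt
      have hlt' : N < 14 := not_le.1 hlt
      simp only [Finset.mem_insert, Finset.mem_singleton, not_or] at hN'
      interval_cases N <;> first | omega | (exact absurd hN (by decide))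
    have h2 : (nuTwo N : ℚ) ≤ 2 := by exact_mod_cast CuspAux.nuTwo_le hN
    have h3 : (nuThree N : ℚ) ≤ 2 := by exact_mod_cast CuspAux.nuThree_le hN
    have h14' : (14 : ℚ) ≤ N := by exact_mod_cast h14
    push_cast
    linarith

theorem cuspClass_ne_zero (hN : N.Prime) (hN' : N ∉ ({2, 3, 5, 7, 13} : Finset ℕ)) :
    cuspClass N hN ≠ 0 := by
  classical
  intro h0
  unfold cuspClass ptSub at h0
  rw [TorsES.mk_eq_zero_iff] at h0
  obtain ⟨f, hf0, hf⟩ := h0
  have hf' : ∀ v : Place Kb (FN N), v.ord f =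
      (Finsupp.single (P0 N hN) 1 - Finsupp.single (Pinf N) 1 : Divisor Kb (FN N)) v :=
    fun v => (hf v).symm
  have hsep := RR.isSepParam_jF N
  -- `f` has a simple pole at `Pinf` and no other pole
  have hinf : (Pinf N).ord f = -1 := by
    rw [hf', Finsupp.sub_apply, Finsupp.single_eq_same,
      Finsupp.single_eq_of_ne (P0_ne_Pinf N hN).symm]
    norm_num
  have hoth : ∀ v : Place Kb (FN N), v ≠ Pinf N → 0 ≤ v.ord f := by
    intro v hv
    rw [hf', Finsupp.sub_apply, Finsupp.single_eq_of_ne hv, sub_zero]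
    by_cases h2 : v = P0 N hN
    · subst h2
      rw [Finsupp.single_eq_same]
      norm_num
    · rw [Finsupp.single_eq_of_ne h2]
  have hnc : f ∉ Set.range (algebraMap Kb (FN N)) := by
    rintro ⟨c, rfl⟩
    rw [S24.Place.ord_algebraMap] at hinf
    norm_num at hinf
  have htr : Transcendental Kb f := (hsep.toIsFiniteParam.of_not_mem_range hnc).transcendental
  obtain ⟨c, hc⟩ := hsep.exists_riemann
  set n : ℕ := c.toNat with hn
  have hdeg : Divisor.degree (Finsupp.single (Pinf N) (n : ℤ) : Divisor Kb (FN N)) = n := by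
    rw [Divisor.degree_single, deg_place]
    simp
  have h1 := hc (Finsupp.single (Pinf N) (n : ℤ)) (by rw [hdeg]; exact Int.self_le_toNat c)
  rw [hdeg] at h1
  -- lower bound for `ℓ(n Pinf)`
  have hfin := hsep.finite_L (Finsupp.single (Pinf N) (n : ℤ))
  have hmem : ∀ p ∈ Polynomial.degreeLT Kb (n + 1),
      Polynomial.aeval f p ∈ riemannRochSpace (Finsupp.single (Pinf N) (n : ℤ) :
        Divisor Kb (FN N)) := by
    intro p hp
    rw [Polynomial.mem_degreeLT] at hp
    rw [Polynomial.aeval_eq_sum_range' (n := n + 1)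
      (by
        rcases eq_or_ne p 0 with rfl | hp0
        · simp
        · exact (Polynomial.natDegree_lt_iff_degree_lt hp0).2 hp)]
    refine Submodule.sum_mem _ fun i hi => Submodule.smul_mem _ _ ?_
    rw [mem_L_iff_of_ne_zero (pow_ne_zero _ hf0)]
    intro v
    rw [S24.Place.ord_pow]
    by_cases hv : v = Pinf N
    · subst hv
      rw [hinf, Finsupp.single_eq_same]
      have := Finset.mem_range.1 hi
      omega
    · rw [Finsupp.single_eq_of_ne hv, add_zero]
      exact mul_nonneg (Int.natCast_nonneg _) (hoth v hv)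
  let T : Polynomial.degreeLT Kb (n + 1) →ₗ[Kb]
      riemannRochSpace (Finsupp.single (Pinf N) (n : ℤ) : Divisor Kb (FN N)) :=
    ((Polynomial.aeval f).toLinearMap.domRestrict (Polynomial.degreeLT Kb (n + 1))).codRestrict _
      (fun p => hmem p.1 p.2)
  have hT : Function.Injective T := by
    intro p p' hpp
    have h2 : Polynomial.aeval f p.1 = Polynomial.aeval f p'.1 := congrArg Subtype.val hpp
    exact Subtype.ext ((transcendental_iff_injective.1 htr) h2)
  have h2 := LinearMap.finrank_le_finrank_of_injective hT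
  rw [(Polynomial.degreeLTEquiv Kb (n + 1)).finrank_eq, Module.finrank_fin_fun] at h2
  have h3 : ((n + 1 : ℕ) : ℤ) ≤ (ell (Finsupp.single (Pinf N) (n : ℤ) : Divisor Kb (FN N)) : ℤ) := by
    exact_mod_cast h2
  have h4 : gR Kb (FN N) ≤ 0 := by
    rw [h1] at h3
    push_cast at h3
    linarith
  have h5 := RR.gR_FN N
  have h6 := genusFormula_pos N hN hN'
  rw [← h5] at h6
  have h7 : (0 : ℤ) < gR Kb (FN N) := by exact_mod_cast h6
  omega

/-- **[CUSP]** rational `r`-power torsion is Eisenstein at all `q ∤ r N`. -/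
theorem hecke_of_rational_torsion {r q : ℕ} (hq : q.Prime) (hqN : ¬ q ∣ N) (hqr : ¬ q ∣ r)
    (z : JZero N) (hz : ∀ σ : Kb ≃ₐ[ℚ] Kb, σ • z = z) (n : ℕ) (hn : r ^ n • z = 0) :
    heckeOperatorBar N ⟨q, hq⟩ z = (1 + q) • z := by
  have : Fact q.Prime := ⟨hq⟩
  obtain ⟨A, hA⟩ := Fermat.Agent.S54.exists_liesOverPrime hq
  have hqN' : ¬ q ∣ N * aux q := not_dvd_mul_aux hq hqN
  have hB : HeckeInputsAlong Kb N (aux q) := heckeInputsAlong' N (aux q)
  have h : ReductionInputsModL A (N * aux q) := reductionInputsModL_aux N hqN A hA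
  obtain ⟨σ₀, hσ₀⟩ := Fermat.Agent.S54.exists_isFrobeniusAt_of_liesOverPrime hq A hA
  set φ := resAut A σ₀ hσ₀.mem_decompositionSubgroup with hφdef
  have hφ : ∀ x, φ x = x ^ q := fun x => by
    rw [hφdef, resAut_apply, hσ₀.smul_residue_eq]
  have h1 := reduction_hecke hq N (aux q) hqN' A hA hB h φ hφ z
  have h2 : coeffAut (IsLocalRing.ResidueField A) (N * aux q) φ •
      reductionModL A (N * aux q) (Bstar N (aux q) hB z) =
      reductionModL A (N * aux q) (Bstar N (aux q) hB z) := by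
    have h3 := reductionModL_smul (N * aux q) hqN' A hA h σ₀ hσ₀.mem_decompositionSubgroup
      (Bstar N (aux q) hB z)
    rw [← Bstar_smul, hz] at h3
    exact h3.symm
  have h2' : (coeffAut (IsLocalRing.ResidueField A) (N * aux q) φ)⁻¹ •
      reductionModL A (N * aux q) (Bstar N (aux q) hB z) =
      reductionModL A (N * aux q) (Bstar N (aux q) hB z) := by
    rw [inv_smul_eq_iff, h2]
  rw [h2, h2'] at h1
  have hr0 : r ≠ 0 := by
    rintro rfl
    exact hqr (dvd_zero q)
  have htors : r ^ n • (heckeOperatorBar N ⟨q, hq⟩ z - (1 + q) • z) = 0 :=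
    CuspAux.nsmul_sub_eq_zero (1 + q)
      (CuspAux.map_nsmul_eq_zero (heckeOperatorBar N ⟨q, hq⟩).toAddMonoidHom hn) hn
  have hred : reductionModL A (N * aux q)
      (Bstar N (aux q) hB (heckeOperatorBar N ⟨q, hq⟩ z - (1 + q) • z)) = 0 :=
    CuspAux.map_sub_eq_zero ((reductionModL A (N * aux q)).comp (Bstar N (aux q) hB)) _ z q h1
  have h4 : Bstar N (aux q) hB (heckeOperatorBar N ⟨q, hq⟩ z - (1 + q) • z) = 0 :=
    Fermat.Agent.S18.result (N * aux q) hqN' A hA h (r ^ n)
      (fun hd => hqr (hq.dvd_of_dvd_pow hd)) _ (CuspAux.map_nsmul_eq_zero _ htors) hred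
  exact sub_eq_zero.1 (Bstar_eq_zero_of_torsion N (aux q) (aux_eq q) hB _ (r ^ n)
    (pow_ne_zero n hr0) htors h4)

end

end Fermat.Agent.MAZ.Dict
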