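import Fermat.Agent.MAZ.Dict.Unit
import Fermat.Agent.RED.Desc.Infty
import Fermat.Agent.RED.RB.CharZero
import Fermat.Agent.GAL.AD.Points

/-!
# MAZ / Dict / [D3]  the two cusps of `X₀(N)` (`N` prime), the divisors of `j` and `u`

* `Pinf` : `RED.Desc.exists_place_infty` (order function = `q`-order).
* `exists_P0` : `RED.RB.card_poles_jF : Nat.card {v // v.ord (jF N) < 0} = cuspCount N` and `cuspCount N = 2` for `N` prime
  (`cuspCount N = ∑_{d ∣ N} φ(gcd(d, N/d))`, `Nat.Prime.divisors`).
* `ord_P0_jF` : `IsSepParam.sum_poles` for `RED.Desc.isSepParam_jF N`, `[F_N : Kb(j)] = ψ(N) = N + 1`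
  (`RED.Desc.finrank_adjoin_jF`, `RED.Desc.card_XN_eq`, `dedekindPsi`).
* `ord_uF_of_finite` : `GAL.AD.exists_point_of_place iotaK.toRingHom N v _` gives `τ, k > 0` with
  `merVal τ (thetaK f) = exp (-(k * v.ord f))`; `thetaK_uF`, `S24.merVal_algebraMap`, `S24.holVal_eq_one_iff` and
  `uHol N τ ≠ 0` (`discriminant_ne_zero`).   (`GAL.AD.jK1 Kb N = jF N` by `Subtype.ext`, cf. `GAL.thetaK_iotaK`.)
* `ord_P0_uF` : the degree of a principal divisor is `0` (`IsSepParam.degree_eq_zero_of_isPrincipal`,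
  `IsSepParam.hasPrincipalDivisors`, `IsSepParam.deg_eq_one`) and all the other orders are known.
* `smul_Pinf` : `SemilinearAut.ord_smul`; the `q`-order is invariant under `coeffMap σ`; a place is determined by its
  valuation ring `{f | 0 ≤ ord f}` (`Place.ext`).   `smul_P0` : `σ • P0` is a pole of `σ • j = j`, `≠ σ • Pinf = Pinf`.
-/

set_option autoImplicit false

open AlgebraicCurve ModularCurve

namespace Fermat.Agent.MAZ.Dict

open Fermat.Agent.S24 Fermat.Agent.RED

noncomputable section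

variable (N : ℕ) [NeZero N]

/-- the cusp `∞`. -/
def Pinf : Place Kb (FN N) := (Desc.exists_place_infty N).choose

theorem ord_Pinf {f : FN N} (hf : f ≠ 0) : (Pinf N).ord f = (f : LaurentSeries Kb).order :=
  (Desc.exists_place_infty N).choose_spec f hf

theorem ord_Pinf_jF : (Pinf N).ord (jF N) = -1 := by
  rw [ord_Pinf N (Desc.jF_ne_zero N), Desc.order_coe_jF]

omit [NeZero N] in
theorem cuspCount_prime (hN : N.Prime) : cuspCount N = 2 := by
  rw [cuspCount, hN.divisors, Finset.sum_pair hN.one_lt.ne]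
  simp [Nat.div_self hN.pos]

omit [NeZero N] in
theorem dedekindPsi_prime (hN : N.Prime) : dedekindPsi N = N + 1 := by
  rw [dedekindPsi, hN.divisors, Finset.filter_true_of_mem, Finset.sum_pair hN.one_lt.ne]
  · simp [Nat.div_self hN.pos]
  · intro d hd
    rcases Finset.mem_insert.1 hd with rfl | hd
    · exact squarefree_one
    · rw [Finset.mem_singleton.1 hd]
      exact hN.squarefree

theorem exists_P0 (hN : N.Prime) :
    ∃ P : Place Kb (FN N), P ≠ Pinf N ∧ P.ord (jF N) < 0 ∧
      ∀ v : Place Kb (FN N), v.ord (jF N) < 0 → v = Pinf N ∨ v = P := by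
  have hcard : Nat.card {v : Place Kb (FN N) // v.ord (jF N) < 0} = 2 := by
    rw [RB.card_poles_jF, cuspCount_prime N hN]
  have hinf : (Pinf N).ord (jF N) < 0 := by rw [ord_Pinf_jF]; omega
  obtain ⟨P, hP, huniq⟩ := (Nat.card_eq_two_iff' (⟨Pinf N, hinf⟩ :
    {v : Place Kb (FN N) // v.ord (jF N) < 0})).1 hcard
  refine ⟨P.1, fun h => hP (Subtype.ext h), P.2, fun v hv => ?_⟩
  by_cases hvi : v = Pinf N
  · exact Or.inl hvi
  · right
    have := huniq ⟨v, hv⟩ (fun h => hvi (congrArg Subtype.val h))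
    exact congrArg Subtype.val this

/-- the cusp `0`. -/
def P0 (hN : N.Prime) : Place Kb (FN N) := (exists_P0 N hN).choose

theorem P0_ne_Pinf (hN : N.Prime) : P0 N hN ≠ Pinf N := (exists_P0 N hN).choose_spec.1

theorem eq_cusp_of_ord_jF_neg (hN : N.Prime) {v : Place Kb (FN N)} (hv : v.ord (jF N) < 0) :
    v = Pinf N ∨ v = P0 N hN := (exists_P0 N hN).choose_spec.2.2 v hv

theorem ord_P0_jF_neg (hN : N.Prime) : (P0 N hN).ord (jF N) < 0 := (exists_P0 N hN).choose_spec.2.1

theorem ord_P0_jF (hN : N.Prime) : (P0 N hN).ord (jF N) = -(N : ℤ) := by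
  classical
  have hs := (Desc.isSepParam_jF N).sum_poles
  have hset : (Desc.isSepParam_jF N).finite_poles.toFinset = {Pinf N, P0 N hN} := by
    ext v
    simp only [Set.Finite.mem_toFinset, Set.mem_ofPred_eq, Finset.mem_insert, Finset.mem_singleton]
    constructor
    · exact eq_cusp_of_ord_jF_neg N hN
    · rintro (rfl | rfl)
      · rw [ord_Pinf_jF]; omega
      · exact ord_P0_jF_neg N hN
  rw [hset, Finset.sum_pair (P0_ne_Pinf N hN).symm, ord_Pinf_jF, Desc.finrank_adjoin_jF,
    Desc.card_XN_eq, dedekindPsi_prime N hN] at hs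
  push_cast at hs
  omega

theorem ord_Pinf_uF (hN : N.Prime) : (Pinf N).ord (uF N hN) = 1 - (N : ℤ) := by
  rw [ord_Pinf N (uF_ne_zero N hN)]
  exact order_uS Kb N

theorem ord_uF_of_finite (hN : N.Prime) {v : Place Kb (FN N)} (hv : 0 ≤ v.ord (jF N)) :
    v.ord (uF N hN) = 0 := by
  have hj : GAL.AD.jK1 Kb N = jF N := Subtype.ext (by
    rw [GAL.AD.jK1, GAL.AD.coe_jK, Desc.coe_jF, jqNModC_one])
  have hmem : GAL.AD.jK1 Kb N ∈ v.toValuationSubring := by
    rw [hj, Place.mem_iff_ord_nonneg v (Desc.jF_ne_zero N)]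
    exact hv
  obtain ⟨τ, k, hk, hval, -⟩ := GAL.AD.exists_point_of_place iotaK.toRingHom N v hmem
  have h1 := hval (uF N hN) (uF_ne_zero N hN)
  rw [thetaK_uF, merVal_algebraMap] at h1
  have h2 : holVal τ (uHol N) = 1 := by
    rw [holVal_eq_one_iff, uHol_apply]
    exact div_ne_zero (ModularForm.discriminant_ne_zero τ) (ModularForm.discriminant_ne_zero _)
  rw [h2] at h1
  have h3 : (-((k : ℤ) * v.ord (uF N hN))) = 0 := by
    have := h1.symm
    rwa [← WithZero.exp_zero, WithZero.exp_inj] at this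
  have hk' : (k : ℤ) ≠ 0 := by exact_mod_cast hk.ne'
  have h4 : (k : ℤ) * v.ord (uF N hN) = 0 := by omega
  exact (mul_eq_zero.1 h4).resolve_left hk'

theorem ord_P0_uF (hN : N.Prime) : (P0 N hN).ord (uF N hN) = (N : ℤ) - 1 := by
  classical
  have hx := Desc.isSepParam_jF N
  have h0 := hx.degree_dv (uF N hN)
  rw [hx.degree_eq_sum_of_subset _ {Pinf N, P0 N hN}, Finset.sum_pair (P0_ne_Pinf N hN).symm,
    hx.dv_apply, hx.dv_apply, ord_Pinf_uF] at h0
  · omega
  · intro v hv
    rw [Finsupp.mem_support_iff, hx.dv_apply] at hv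
    have hneg : v.ord (jF N) < 0 := by
      by_contra hcon
      exact hv (ord_uF_of_finite N hN (not_lt.1 hcon))
    simpa using eq_cusp_of_ord_jF_neg N hN hneg

omit [NeZero N] in
theorem order_coeffMap_cusps {C D : Type*} [Field C] [Field D] (σ : C →+* D)
    (x : LaurentSeries C) : (coeffMap σ x).order = x.order := by
  rcases eq_or_ne x 0 with rfl | hx
  · rw [map_zero, HahnSeries.order_zero, HahnSeries.order_zero]
  have hx' : coeffMap σ x ≠ 0 := (map_ne_zero (coeffMap σ)).mpr hx
  refine le_antisymm ?_ ?_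
  · refine HahnSeries.order_le_of_coeff_ne_zero ?_
    rw [coeffMap_coeff]
    exact (map_ne_zero σ).mpr (fun h => hx (HahnSeries.coeff_order_eq_zero.mp h))
  · refine HahnSeries.order_le_of_coeff_ne_zero ?_
    have : (ModularCurve.coeffMap σ x).coeff (ModularCurve.coeffMap σ x).order ≠ 0 :=
      fun h => hx' (HahnSeries.coeff_order_eq_zero.mp h)
    rw [coeffMap_coeff] at this
    exact (map_ne_zero σ).mp this

omit [NeZero N] in
/-- a place is determined by its order function -/
theorem place_ext_of_ord {K F : Type*} [Field K] [Field F] [Algebra K F] {v w : Place K F}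
    (h : ∀ f : F, f ≠ 0 → v.ord f = w.ord f) : v = w := by
  have hring : v.toValuationSubring = w.toValuationSubring := by
    ext f
    by_cases hf : f = 0
    · subst hf; simp [zero_mem]
    · rw [S24.Place.mem_iff_ord_nonneg _ hf, S24.Place.mem_iff_ord_nonneg _ hf, h f hf]
  cases v
  cases w
  simp only [Place.mk.injEq]
  exact hring

theorem smul_Pinf (σ : Kb ≃ₐ[ℚ] Kb) :
    arithmeticGalois (modularFunctionFieldFull N) σ • Pinf N = Pinf N := by
  set g := arithmeticGalois (L := Kb) (modularFunctionFieldFull N) σ with hg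
  have hord : ∀ f : FN N, f ≠ 0 → (g • Pinf N).ord f = (Pinf N).ord f := by
    intro f hf
    have h1 := SemilinearAut.ord_smul g (Pinf N) (g⁻¹ • f)
    rw [smul_inv_smul] at h1
    have hf' : g⁻¹ • f ≠ 0 := by
      intro h
      apply hf
      have := congrArg (fun x => g • x) h
      simpa using this
    rw [h1, ord_Pinf N hf', ord_Pinf N hf]
    have h2 : ((g • (g⁻¹ • f) : FN N) : LaurentSeries Kb).order =
        ((g⁻¹ • f : FN N) : LaurentSeries Kb).order := by
      rw [hg, coe_arithmeticGalois_smul]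
      exact order_coeffMap_cusps _ _
    rw [smul_inv_smul] at h2
    exact h2.symm
  exact place_ext_of_ord hord

theorem smul_P0 (hN : N.Prime) (σ : Kb ≃ₐ[ℚ] Kb) :
    arithmeticGalois (modularFunctionFieldFull N) σ • P0 N hN = P0 N hN := by
  set g := arithmeticGalois (L := Kb) (modularFunctionFieldFull N) σ with hg
  have hj : g • jF N = jF N := by
    apply Subtype.ext
    rw [hg, coe_arithmeticGalois_smul, Desc.coe_jF, coeffMap_jqModC]
  have h1 := SemilinearAut.ord_smul g (P0 N hN) (jF N)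
  rw [hj] at h1
  rcases eq_cusp_of_ord_jF_neg N hN (v := g • P0 N hN) (by rw [h1]; exact ord_P0_jF_neg N hN)
    with h | h
  · exfalso
    apply P0_ne_Pinf N hN
    have h2 : g • P0 N hN = g • Pinf N := by rw [h, hg, smul_Pinf]
    exact smul_left_cancel g h2
  · exact h

end

end Fermat.Agent.MAZ.Dict
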