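import Fermat.Agent.MAZ.Dict.An
import Fermat.Agent.MAZ.Dict.Cusps
import Fermat.Agent.GAL.AD.Kappa
import Fermat.Agent.RED.TorsionInj

/-!
# MAZ / Dict / [D4]  the place of `X₀(N)` attached to `(E, Q)`

* `exists_place_of_tau` : `GAL.AD.exists_place_of_point iotaK.toRingHom N τ j₀ hj` gives `x, k > 0` with
  `merVal τ (thetaK f) = exp (-(k * x.ord f))` for `f ≠ 0`.  For `f = jF N - j₀` (`≠ 0`: `jF` is not a constant, e.g. `ord_Pinf_jF`) :
  `thetaK f = algebraMap Hol Mer (jHol - const)` vanishes at `τ`, so `merVal τ (thetaK f) < 1` (`S24.merVal_algebraMap`, `S24.holVal_lt_one_iff`/`holVal_eq_one_iff`),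
  so `0 < x.ord f`.  Same for `f = uF N hN - u₀` with `thetaK_uF` (`≠ 0`: `ord_Pinf_uF`, `N ≠ 1`).
  (`GAL.AD.jK1 Kb N = jF N`, `GAL.thetaK_iotaK`, `S24.ThetaMer_jF`-type lemmas.)
* `ord_inv_sub`, `ord_mul_sub` : `f⁻¹ - a⁻¹ = -(f - a) f⁻¹ a⁻¹` and `ord_x f = 0` because `f = a + (f - a)` (`Place.ord_add_eq_of_lt`-type lemma,
  `S24.Place.ord_algebraMap`); `f g - a b = (f - a) g + a (g - b)`.
* `ord_smul_sub` : `SemilinearAut.ord_smul`, `arithmeticRingAut_algebraMap`.
* `smul_jF`, `smul_uF` : `coe_arithmeticGalois_smul`, `coeffMap_jqModC`, `coeffMap_uS`.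
-/

set_option autoImplicit false

open AlgebraicCurve ModularCurve UpperHalfPlane

namespace Fermat.Agent.MAZ.Dict

open Fermat.Agent.S24 Fermat.Agent.MAZ.Ell

noncomputable section

local notation "Δ" => ModularForm.discriminant

variable (N : ℕ) [NeZero N]

theorem exists_place_of_tau (hN : N.Prime) (τ : ℍ) (j₀ u₀ : Kb) (hj : iotaK j₀ = jfun τ)
    (hu : iotaK u₀ = Δ τ / Δ (scal N τ)) :
    ∃ x : Place Kb (FN N), 0 < x.ord (jF N - algebraMap Kb (FN N) j₀) ∧
      0 < x.ord (uF N hN - algebraMap Kb (FN N) u₀) := by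
  have hjK : GAL.AD.jK1 Kb N = jF N := Subtype.ext (by
    rw [GAL.AD.jK1, GAL.AD.coe_jK, RED.Desc.coe_jF, jqNModC_one])
  obtain ⟨x, k, hk, hval⟩ := GAL.AD.exists_place_of_point iotaK.toRingHom N τ j₀ hj
  have hk' : (0 : ℤ) < k := by exact_mod_cast hk
  -- general principle
  have key : ∀ (f : FN N) (h : Hol), f ≠ 0 →
      GAL.AD.thetaK iotaK.toRingHom N f = algebraMap Hol Mer h → (h : ℍ → ℂ) τ = 0 →
      0 < x.ord f := by
    intro f h hf e h0
    have h1 := hval f hf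
    rw [e, merVal_algebraMap] at h1
    have h2 : holVal τ h < 1 := (holVal_lt_one_iff τ h).2 h0
    rw [h1, ← WithZero.exp_zero, WithZero.exp_lt_exp] at h2
    by_contra hcon
    have : (k : ℤ) * x.ord f ≤ 0 := mul_nonpos_of_nonneg_of_nonpos hk'.le (not_lt.1 hcon)
    omega
  have hj0 : jF N - algebraMap Kb (FN N) j₀ ≠ 0 := by
    intro h0
    rw [sub_eq_zero] at h0
    have := ord_Pinf_jF N
    rw [h0, S24.Place.ord_algebraMap] at this
    omega
  have hu0 : uF N hN - algebraMap Kb (FN N) u₀ ≠ 0 := by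
    intro h0
    rw [sub_eq_zero] at h0
    have := ord_Pinf_uF N hN
    rw [h0, S24.Place.ord_algebraMap] at this
    have h2 := hN.two_le
    omega
  refine ⟨x, key _ (jdHol 1 - algebraMap ℂ Hol (iotaK.toRingHom j₀)) hj0 ?_ ?_,
    key _ (uHol N - algebraMap ℂ Hol (iotaK.toRingHom u₀)) hu0 ?_ ?_⟩
  · rw [← hjK, RingHom.map_sub, GAL.AD.thetaK_jK1, GAL.AD.thetaK_algebraMap, RingHom.map_sub,
      ← IsScalarTower.algebraMap_apply]
  · rw [coe_jdHol_one_sub]
    exact sub_eq_zero.2 hj.symm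
  · rw [RingHom.map_sub, thetaK_uF, GAL.AD.thetaK_algebraMap, RingHom.map_sub,
      ← IsScalarTower.algebraMap_apply]
  · show (uHol N : ℍ → ℂ) τ - iotaK u₀ = 0
    rw [uHol_apply, hu, sub_self]

/-- **[D4]** the place attached to `(E, Q)`. -/
theorem exists_place_of_point [DecidableEq Kb] (hN : N.Prime) (h2 : N ≠ 2)
    (W : WeierstrassCurve.Affine Kb) (Q : W.Point) (hQ : addOrderOf Q = N) (hc₄ : W.c₄ ≠ 0)
    (hc₆ : W.c₆ ≠ 0) (hΔ : W.Δ ≠ 0) :
    ∃ x : Place Kb (FN N), 0 < x.ord (jF N - algebraMap Kb (FN N) (W.c₄ ^ 3 / W.Δ)) ∧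
      0 < x.ord (uF N hN - algebraMap Kb (FN N) (lam W N Q)) := by
  obtain ⟨τ, h1, h3⟩ := exists_tau_of_point iotaK.toRingHom W N hN h2 Q hQ hc₄ hc₆ hΔ
  exact exists_place_of_tau N hN τ _ _ h1.symm h3.symm

variable {N}

theorem ord_inv_sub {x : Place Kb (FN N)} {f : FN N} {a : Kb} (ha : a ≠ 0)
    (h : 0 < x.ord (f - algebraMap Kb (FN N) a)) :
    0 < x.ord (f⁻¹ - algebraMap Kb (FN N) a⁻¹) := by
  have hA : algebraMap Kb (FN N) a ≠ 0 := by simpa using ha
  have hd : f - algebraMap Kb (FN N) a ≠ 0 := RED.ne_zero_of_ord_ne_zero _ h.ne'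
  have hf : x.ord f = 0 := by
    have e : f = algebraMap Kb (FN N) a + (f - algebraMap Kb (FN N) a) := by ring
    rw [e, S24.Place.ord_add_eq_of_lt x hA hd (by rw [S24.Place.ord_algebraMap]; exact h),
      S24.Place.ord_algebraMap]
  have hf0 : f ≠ 0 := by
    rintro rfl
    rw [zero_sub, S24.Place.ord_neg, S24.Place.ord_algebraMap] at h
    exact lt_irrefl _ h
  have e : f⁻¹ - algebraMap Kb (FN N) a⁻¹ =
      -((f - algebraMap Kb (FN N) a) * (f⁻¹ * (algebraMap Kb (FN N) a)⁻¹)) := by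
    rw [map_inv₀]
    field_simp
    ring
  rw [e, S24.Place.ord_neg, x.ord_mul hd (mul_ne_zero (inv_ne_zero hf0) (inv_ne_zero hA)),
    x.ord_mul (inv_ne_zero hf0) (inv_ne_zero hA), x.ord_inv, x.ord_inv, hf,
    S24.Place.ord_algebraMap]
  simpa using h

theorem ord_mul_sub {x : Place Kb (FN N)} {f g : FN N} {a b : Kb}
    (hfg : f * g - algebraMap Kb (FN N) (a * b) ≠ 0)
    (hf : 0 < x.ord (f - algebraMap Kb (FN N) a)) (hg : 0 < x.ord (g - algebraMap Kb (FN N) b)) :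
    0 < x.ord (f * g - algebraMap Kb (FN N) (a * b)) := by
  have hd : f - algebraMap Kb (FN N) a ≠ 0 := RED.ne_zero_of_ord_ne_zero _ hf.ne'
  have hd' : g - algebraMap Kb (FN N) b ≠ 0 := RED.ne_zero_of_ord_ne_zero _ hg.ne'
  have e : f * g - algebraMap Kb (FN N) (a * b) =
      (f - algebraMap Kb (FN N) a) * g + algebraMap Kb (FN N) a * (g - algebraMap Kb (FN N) b) := by
    rw [map_mul]; ring
  have hY : a ≠ 0 → 0 < x.ord (algebraMap Kb (FN N) a * (g - algebraMap Kb (FN N) b)) := by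
    intro ha
    rw [x.ord_mul (by simpa using ha) hd', S24.Place.ord_algebraMap, zero_add]
    exact hg
  rcases eq_or_ne g 0 with rfl | hg0
  · rw [e] at hfg ⊢
    rw [mul_zero, zero_add] at hfg ⊢
    exact hY (by rintro rfl; simp at hfg)
  have hgn : 0 ≤ x.ord g := by
    have e' : g = (g - algebraMap Kb (FN N) b) + algebraMap Kb (FN N) b := by ring
    rw [e']
    exact RED.ord_add_ge' x le_rfl hg.le (by rw [S24.Place.ord_algebraMap])
  have hX : 0 < x.ord ((f - algebraMap Kb (FN N) a) * g) := by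
    rw [x.ord_mul hd hg0]; omega
  rcases eq_or_ne a 0 with rfl | ha
  · rw [e, map_zero, zero_mul, add_zero]
    simpa using hX
  · rw [e] at hfg ⊢
    exact lt_of_lt_of_le (lt_min hX (hY ha))
      (S24.Place.ord_add_ge x (mul_ne_zero hd hg0) (mul_ne_zero (by simpa using ha) hd') hfg)

theorem ord_smul_sub (σ : Kb ≃ₐ[ℚ] Kb) {x : Place Kb (FN N)} {f : FN N} {a : Kb}
    (hf : arithmeticGalois (modularFunctionFieldFull N) σ • f = f) (ha : σ a = a)
    (h : 0 < x.ord (f - algebraMap Kb (FN N) a)) :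
    0 < (arithmeticGalois (modularFunctionFieldFull N) σ • x).ord (f - algebraMap Kb (FN N) a) := by
  have e : arithmeticGalois (modularFunctionFieldFull N) σ • (f - algebraMap Kb (FN N) a) =
      f - algebraMap Kb (FN N) a := by
    rw [smul_sub, hf, SemilinearAut.smul_algebraMap, baseAut_arithmeticGalois]
    congr 2
  rw [← e, SemilinearAut.ord_smul]
  exact h

variable (N)

theorem smul_jF (σ : Kb ≃ₐ[ℚ] Kb) :
    arithmeticGalois (modularFunctionFieldFull N) σ • jF N = jF N := by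
  apply Subtype.ext
  rw [coe_arithmeticGalois_smul, RED.Desc.coe_jF, coeffMap_jqModC]

theorem smul_uF (hN : N.Prime) (σ : Kb ≃ₐ[ℚ] Kb) :
    arithmeticGalois (modularFunctionFieldFull N) σ • uF N hN = uF N hN := by
  apply Subtype.ext
  rw [coe_arithmeticGalois_smul]
  exact coeffMap_uS N _

end

end Fermat.Agent.MAZ.Dict
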