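import Fermat.Agent.MAZ.Klein.Delta
import Fermat.Agent.RED.QEP0
import Fermat.Agent.S28.Analytic.UnitFormal
import Fermat.Agent.GAL.Sup.K1b
import Fermat.Agent.RED.Frobk.Basic

/-!
# MAZ / Dict / [D2]  the modular unit `u = Δ(q)/Δ(q^N)` as an element of the function field `F_N`

Formal side (any commutative ring `R`; `S28.DeltaS`, `S28.DeltaSInv`, `S28.coeffMap_DeltaS`):
`uS R N = Δ(q) Δ(q^N)⁻¹`, `uInvS R N`, `jInvS R = 1/j = Δ / E₄³`.  All have leading coefficient `1`.

Analytic side: `uHol N : τ ↦ Δ(τ)/Δ(Nτ)`.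

* `uHol_mem_RN` (`N` prime): invariance under `Γ₀(N)`: `Klein.delta_scal_smul_of_mem` + `Common.JPoly.discriminant_smul`.
  Moderate growth of `uHol ∘ g`: for `g ∈ Γ₀(N)` it is `uHol`; otherwise
  `uHol (gτ) = N¹² Δ(τ)/Δ((τ+j)/N)` (`Klein.delta_scal_smul_of_not_mem`); in both cases
  `Δ^m · (..)` is bounded for `m = N` by `Klein.delta_norm_bounds`.   (`actHol g f z = f (g⁻¹ z)`.)
  (See also `S28/Analytic/Unit.lean`: `W`, `W_comp_props`, `exists_tri`.)
* `uS_mem`: `RED.mem_bar_of_mem_RN N (uHol N) _ U _ (uS Kb N) _` with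
  `U := algebraMap _ (MerPer 1) (deltaScal 1) / algebraMap _ _ (deltaScal N)`; the `q`-expansion of `deltaScal d`
  is computed in the proof of `S24.toLaurent_jdPer` / `S24.jqNModC_eq_div`.
* `thetaK_uF`: `RED.ThetaMer_eq_of_mem_RN` + `GAL.thetaK_iotaK`.
-/

set_option autoImplicit false
set_option linter.unusedSectionVars false

open UpperHalfPlane ModularForm ModularCurve CongruenceSubgroup
open scoped MatrixGroups Manifold

namespace Fermat.Agent.MAZ.Dict

open Fermat.Agent.S24 Fermat.Agent.S28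

noncomputable section

local notation "Δ" => ModularForm.discriminant


section Formal

variable (R : Type*) [CommRing R] (N : ℕ) [NeZero N]

/-- the formal `u = Δ(q)/Δ(q^N)`. -/
def uS : LaurentSeries R := DeltaS R * qExpand R N (DeltaSInv R)

/-- the formal `1/u`. -/
def uInvS : LaurentSeries R := DeltaSInv R * qExpand R N (DeltaS R)

/-- the formal `1/j = Δ/E₄³`. -/
def jInvS : LaurentSeries R :=
  DeltaS R * HahnSeries.ofPowerSeries ℤ R
    (((eisenstein4 ^ 3).invOfUnit 1).map (Int.castRingHom R))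

theorem uS_mul_uInvS : uS R N * uInvS R N = 1 := by
  have h1 := DeltaS_mul_inv R
  have h2 : qExpand R N (DeltaSInv R) * qExpand R N (DeltaS R) = 1 := by
    rw [← map_mul, mul_comm, h1, map_one]
  calc uS R N * uInvS R N = (DeltaS R * DeltaSInv R) *
        (qExpand R N (DeltaSInv R) * qExpand R N (DeltaS R)) := by rw [uS, uInvS]; ring
    _ = 1 := by rw [h1, h2, one_mul]

theorem jqModC_mul_jInvS : jqModC R * jInvS R = 1 := by
  have h2 : (HahnSeries.single (-1 : ℤ) (1 : R)) * HahnSeries.single (1 : ℤ) (1 : R) = 1 := by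
    rw [HahnSeries.single_mul_single]
    simp
  have h3 : (eisenstein4 ^ 3) * (eisenstein4 ^ 3).invOfUnit 1 = 1 :=
    PowerSeries.mul_invOfUnit _ _ (by rw [map_pow, constantCoeff_eisenstein4, one_pow]; rfl)
  have h4 : jNum * (dedekindEtaUnit * (eisenstein4 ^ 3).invOfUnit 1) = 1 := by
    calc jNum * (dedekindEtaUnit * (eisenstein4 ^ 3).invOfUnit 1)
        = (eisenstein4 ^ 3 * (eisenstein4 ^ 3).invOfUnit 1) *
          (dedekindEtaUnit * dedekindEtaUnitInv) := by rw [jNum]; ring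
      _ = 1 := by rw [h3, dedekindEtaUnit_mul_inv, one_mul]
  have h1 : HahnSeries.ofPowerSeries ℤ R (jNum.map (Int.castRingHom R)) *
      (HahnSeries.ofPowerSeries ℤ R (dedekindEtaUnit.map (Int.castRingHom R)) *
      HahnSeries.ofPowerSeries ℤ R (((eisenstein4 ^ 3).invOfUnit 1).map (Int.castRingHom R))) = 1 := by
    rw [← map_mul, ← map_mul, ← map_mul, ← map_mul, h4, map_one, map_one]
  calc jqModC R * jInvS R = ((HahnSeries.single (-1 : ℤ) (1 : R)) * HahnSeries.single (1 : ℤ) (1 : R)) *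
      (HahnSeries.ofPowerSeries ℤ R (jNum.map (Int.castRingHom R)) *
      (HahnSeries.ofPowerSeries ℤ R (dedekindEtaUnit.map (Int.castRingHom R)) *
      HahnSeries.ofPowerSeries ℤ R (((eisenstein4 ^ 3).invOfUnit 1).map (Int.castRingHom R)))) := by
        rw [jqModC, jInvS, DeltaS]; ring
    _ = 1 := by rw [h1, h2, one_mul]

variable {R} in
theorem coeffMap_ofPS_int {S : Type*} [CommRing S] (f : R →+* S) (φ : PowerSeries ℤ) :
    coeffMap f (HahnSeries.ofPowerSeries ℤ R (φ.map (Int.castRingHom R))) =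
      HahnSeries.ofPowerSeries ℤ S (φ.map (Int.castRingHom S)) := by
  rw [coeffMap_ofPowerSeries,
    ← RingHom.comp_apply (PowerSeries.map f) (PowerSeries.map (Int.castRingHom R)),
    ← PowerSeries.map_comp, RingHom.ext_int (f.comp (Int.castRingHom R)) (Int.castRingHom S)]

variable {R} in
theorem coeffMap_DeltaSInv {S : Type*} [CommRing S] (f : R →+* S) :
    coeffMap f (DeltaSInv R) = DeltaSInv S := by
  rw [DeltaSInv, DeltaSInv, map_mul, coeffMap_single, map_one, coeffMap_ofPS_int]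

variable {R} in
theorem coeffMap_uS {S : Type*} [CommRing S] (f : R →+* S) : coeffMap f (uS R N) = uS S N := by
  rw [uS, uS, map_mul, coeffMap_DeltaS, coeffMap_qExpand, coeffMap_DeltaSInv]

variable {R} in
theorem coeffMap_uInvS {S : Type*} [CommRing S] (f : R →+* S) :
    coeffMap f (uInvS R N) = uInvS S N := by
  rw [uInvS, uInvS, map_mul, coeffMap_DeltaSInv, coeffMap_qExpand, coeffMap_DeltaS]

variable {R} in
theorem coeffMap_jInvS {S : Type*} [CommRing S] (f : R →+* S) :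
    coeffMap f (jInvS R) = jInvS S := by
  rw [jInvS, jInvS, map_mul, coeffMap_DeltaS, coeffMap_ofPS_int]

/-- `q^n (1 + …)` has order `n`. -/
theorem order_single_mul_ofPS [Nontrivial R] (n : ℤ) (φ : PowerSeries R)
    (hφ : PowerSeries.constantCoeff φ = 1) :
    (HahnSeries.single n (1 : R) * HahnSeries.ofPowerSeries ℤ R φ).order = n := by
  have hc : ∀ k, (HahnSeries.single n (1 : R) * HahnSeries.ofPowerSeries ℤ R φ).coeff k =
      (HahnSeries.ofPowerSeries ℤ R φ).coeff (k - n) := by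
    intro k
    rw [HahnSeries.coeff_single_mul, one_mul]
  have h1 : (HahnSeries.single n (1 : R) * HahnSeries.ofPowerSeries ℤ R φ).coeff n = 1 := by
    rw [hc, sub_self]
    have := HahnSeries.ofPowerSeries_apply_coeff (Γ := ℤ) φ 0
    rw [Nat.cast_zero] at this
    rw [this, PowerSeries.coeff_zero_eq_constantCoeff_apply, hφ]
  have hne : HahnSeries.single n (1 : R) * HahnSeries.ofPowerSeries ℤ R φ ≠ 0 :=
    HahnSeries.ne_zero_of_coeff_ne_zero (by rw [h1]; exact one_ne_zero)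
  apply le_antisymm
  · exact HahnSeries.order_le_of_coeff_ne_zero (by rw [h1]; exact one_ne_zero)
  · refine (HahnSeries.le_order_iff_forall hne).2 fun j hj => ?_
    rw [hc]
    exact ofPowerSeries_coeff_of_neg _ (by omega)

theorem constantCoeff_map_int (φ : PowerSeries ℤ) (hφ : PowerSeries.constantCoeff φ = 1) :
    PowerSeries.constantCoeff (φ.map (Int.castRingHom R)) = 1 := by
  rw [← PowerSeries.coeff_zero_eq_constantCoeff_apply, PowerSeries.coeff_map,
    PowerSeries.coeff_zero_eq_constantCoeff_apply, hφ, map_one]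

theorem uS_eq : uS R N = HahnSeries.single (1 - (N : ℤ)) (1 : R) *
    HahnSeries.ofPowerSeries ℤ R (dedekindEtaUnit.map (Int.castRingHom R) *
      PowerSeries.expand N (NeZero.ne N) (dedekindEtaUnitInv.map (Int.castRingHom R))) := by
  rw [uS, DeltaS, DeltaSInv, map_mul, qExpand_single, RED.qExpand_ofPowerSeries, map_mul,
    show (1 - (N : ℤ)) = 1 + (N : ℤ) * (-1) by ring, ← one_mul (1 : R),
    ← HahnSeries.single_mul_single, one_mul]
  ring

theorem order_uS [Nontrivial R] : (uS R N).order = 1 - (N : ℤ) := by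
  rw [uS_eq]
  apply order_single_mul_ofPS
  rw [map_mul, PowerSeries.constantCoeff_expand, constantCoeff_map_int R _
    constantCoeff_dedekindEtaUnit, constantCoeff_map_int R _ constantCoeff_dedekindEtaUnitInv,
    one_mul]

end Formal

variable (N : ℕ) [NeZero N]

theorem mdiff_uHol : MDiff (fun τ : ℍ => Δ τ / Δ (scal N τ)) := by
  have h1 : MDiff Δ := mdiff_discriminant
  have h2 : MDiff (Δ ∘ scal N) := mdiff_comp_scal N mdiff_discriminant
  rw [UpperHalfPlane.mdifferentiable_iff] at h1 h2 ⊢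
  exact h1.div h2 (fun z _ => discriminant_ne_zero _)

/-- `τ ↦ Δ(τ)/Δ(Nτ)`. -/
def uHol : Hol := ⟨fun τ => Δ τ / Δ (scal N τ), mdiff_uHol N⟩

@[simp] theorem uHol_apply (τ : ℍ) : (uHol N : ℍ → ℂ) τ = Δ τ / Δ (scal N τ) := rfl

theorem uHol_smul_of_mem {g : SL(2, ℤ)} (hg : g ∈ Gamma0 N) (τ : ℍ) :
    (uHol N : ℍ → ℂ) (g • τ) = (uHol N : ℍ → ℂ) τ := by
  have hd : denom g τ ^ 12 ≠ 0 := pow_ne_zero _ (denom_ne_zero _ τ)
  have h1 : Δ (g • τ) = denom g τ ^ 12 * Δ τ := by
    rw [Fermat.Agent.Common.JPoly.discriminant_smul]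
    norm_cast
  rw [uHol_apply, uHol_apply, Klein.delta_scal_smul_of_mem N hg, h1,
    mul_div_mul_left _ _ hd]

theorem uHol_smul_of_not_mem (hN : N.Prime) {g : SL(2, ℤ)} (hg : g ∉ Gamma0 N) :
    ∃ j : ℤ, ∀ τ : ℍ, (uHol N : ℍ → ℂ) (g • τ) =
      (N : ℂ) ^ 12 * (Δ τ / Δ (ofComplex (((τ : ℂ) + j) / N))) := by
  obtain ⟨j, hj⟩ := Klein.delta_scal_smul_of_not_mem N hN hg
  refine ⟨j, fun τ => ?_⟩
  have hd : denom g τ ≠ 0 := denom_ne_zero _ τ
  have hN0 : (N : ℂ) ≠ 0 := Nat.cast_ne_zero.2 (NeZero.ne N)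
  have h1 : Δ (g • τ) = denom g τ ^ 12 * Δ τ := by
    rw [Fermat.Agent.Common.JPoly.discriminant_smul]
    norm_cast
  have h2 : Δ (ofComplex (((τ : ℂ) + j) / N)) ≠ 0 := discriminant_ne_zero _
  rw [uHol_apply, hj τ, h1]
  field_simp

theorem modG_uHol : CPAlt.ModG (uHol N : ℍ → ℂ) := by
  refine ⟨N, ?_⟩
  have h1 := (Klein.delta_ratio_tendsto N).inv₀ one_ne_zero
  have h2 := CPAlt.isBounded_discriminant.mul (h1.isBigO_one ℝ)
  refine h2.congr' (Filter.Eventually.of_forall fun τ => ?_) Filter.EventuallyEq.rfl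
  simp only [Pi.mul_apply, uHol_apply, inv_div]
  ring

theorem modG_uHol_of_not_mem (hN : N.Prime) {g : SL(2, ℤ)} (hg : g ∉ Gamma0 N) :
    CPAlt.ModG (fun τ => (uHol N : ℍ → ℂ) (g • τ)) := by
  obtain ⟨j, hj⟩ := uHol_smul_of_not_mem N hN hg
  obtain ⟨c, C, A, hc, hb⟩ := Klein.delta_norm_bounds
  refine ⟨0, ?_⟩
  rw [UpperHalfPlane.isBoundedAtImInfty_iff]
  have hNpos : (0 : ℝ) < N := Nat.cast_pos.2 (Nat.pos_of_ne_zero (NeZero.ne N))
  have hN1 : (1 : ℝ) ≤ N := by exact_mod_cast Nat.pos_of_ne_zero (NeZero.ne N)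
  refine ⟨(N : ℝ) ^ 12 * (|C| / c), max (max A (N * A)) 0, fun τ hτ => ?_⟩
  have hτA : A ≤ τ.im := (le_max_left _ _).trans ((le_max_left _ _).trans hτ)
  have hτNA : N * A ≤ τ.im := (le_max_right _ _).trans ((le_max_left _ _).trans hτ)
  have him : 0 < (((τ : ℂ) + j) / N).im := by
    have : (((τ : ℂ) + j) / N).im = τ.im / N := by
      rw [Complex.div_natCast_im]
      simp
    rw [this]
    exact div_pos τ.im_pos hNpos
  have himw : (ofComplex (((τ : ℂ) + j) / N)).im = τ.im / N := by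
    rw [ofComplex_apply_of_im_pos him]
    show (((τ : ℂ) + j) / N).im = τ.im / N
    rw [Complex.div_natCast_im]
    simp
  have hw := (hb (ofComplex (((τ : ℂ) + j) / N)) (by
    rw [himw, le_div_iff₀ hNpos, mul_comm]; exact hτNA)).1
  have hτ' := (hb τ hτA).2
  rw [himw] at hw
  simp only [pow_zero, one_mul]
  rw [hj τ, norm_mul, norm_pow, Complex.norm_natCast, norm_div]
  refine mul_le_mul_of_nonneg_left ?_ (by positivity)
  have hpos : 0 < c * Real.exp (-2 * Real.pi * (τ.im / N)) := mul_pos hc (Real.exp_pos _)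
  rw [div_le_div_iff₀ (hpos.trans_le hw) hc]
  have h3 : Real.exp (-2 * Real.pi * τ.im) ≤ Real.exp (-2 * Real.pi * (τ.im / N)) := by
    apply Real.exp_le_exp.2
    have h4 : τ.im / N ≤ τ.im := div_le_self τ.im_pos.le hN1
    have := Real.pi_pos
    nlinarith
  calc ‖Δ τ‖ * c ≤ (C * Real.exp (-2 * Real.pi * τ.im)) * c :=
        mul_le_mul_of_nonneg_right hτ' hc.le
    _ ≤ (|C| * Real.exp (-2 * Real.pi * (τ.im / N))) * c := by
        refine mul_le_mul_of_nonneg_right ?_ hc.le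
        calc C * Real.exp (-2 * Real.pi * τ.im) ≤ |C| * Real.exp (-2 * Real.pi * τ.im) :=
              mul_le_mul_of_nonneg_right (le_abs_self C) (Real.exp_pos _).le
          _ ≤ _ := mul_le_mul_of_nonneg_left h3 (abs_nonneg C)
    _ = |C| * (c * Real.exp (-2 * Real.pi * (τ.im / N))) := by ring
    _ ≤ |C| * ‖Δ (ofComplex (((τ : ℂ) + j) / N))‖ := mul_le_mul_of_nonneg_left hw (abs_nonneg C)

theorem uHol_mem_RN (hN : N.Prime) : uHol N ∈ CPAlt.RN N := by
  refine ⟨fun γ hγ => ?_, fun g => ?_⟩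
  · apply Subtype.ext
    funext τ
    rw [actHol_apply]
    exact uHol_smul_of_mem N (inv_mem hγ) τ
  · show CPAlt.ModG (actHol g (uHol N) : ℍ → ℂ)
    by_cases hg : g⁻¹ ∈ Gamma0 N
    · have : (actHol g (uHol N) : ℍ → ℂ) = (uHol N : ℍ → ℂ) := by
        funext τ
        rw [actHol_apply]
        exact uHol_smul_of_mem N hg τ
      rw [this]
      exact modG_uHol N
    · have : (actHol g (uHol N) : ℍ → ℂ) = fun τ => (uHol N : ℍ → ℂ) (g⁻¹ • τ) := by
        funext τ
        rw [actHol_apply]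
      rw [this]
      exact modG_uHol_of_not_mem N hN hg

/-- `Δ(τ)/Δ(Nτ)` as an element of `MerPer 1`. -/
def uPer : MerPer 1 :=
  algebraMap (HolPer 1) (MerPer 1) (deltaScal 1) / algebraMap (HolPer 1) (MerPer 1) (deltaScal N)

theorem toMer_uPer : toMer 1 (uPer N) = algebraMap Hol Mer (uHol N) := by
  have hne : algebraMap Hol Mer (inclHol 1 (deltaScal N)) ≠ 0 := by
    rw [Ne, map_eq_zero_iff _ (IsFractionRing.injective Hol Mer)]
    intro h
    have := congrFun (congrArg Subtype.val h) UpperHalfPlane.I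
    exact discriminant_ne_zero _ this
  rw [uPer, map_div₀, toMer_algebraMap, toMer_algebraMap, div_eq_iff hne, ← map_mul]
  refine congrArg _ (Subtype.ext (funext fun τ => ?_))
  have h1 : (inclHol 1 (deltaScal 1) : ℍ → ℂ) τ = Δ (scal 1 τ) := rfl
  have h2 : ((uHol N * inclHol 1 (deltaScal N) : Hol) : ℍ → ℂ) τ =
      (uHol N : ℍ → ℂ) τ * Δ (scal N τ) := rfl
  rw [h1, h2, uHol_apply, scal_one, div_mul_cancel₀ _ (discriminant_ne_zero _)]

theorem ofPowerSeries_qExpansion_discriminant :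
    HahnSeries.ofPowerSeries ℤ ℂ (qExpansion 1 Δ) = DeltaS ℂ := by
  rw [qExpansion_discriminant, map_mul, HahnSeries.ofPowerSeries_X, DeltaS]

theorem toLaurent_deltaScal (d : ℕ) [NeZero d] :
    toLaurent 1 (algebraMap (HolPer 1) (MerPer 1) (deltaScal d)) = qExpand ℂ d (DeltaS ℂ) := by
  rw [toLaurent_algebraMap, ← ofPowerSeries_qExpansion_discriminant,
    ← ofPowerSeries_qExpansion_comp_scal d periodic_discriminant mdiff_discriminant
      isBoundedAtImInfty_discriminant]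
  simp [deltaScal]

theorem toLaurent_uPer : toLaurent 1 (uPer N) = coeffMap iotaK.toRingHom (uS Kb N) := by
  have h1 : qExpand ℂ N (DeltaS ℂ) * qExpand ℂ N (DeltaSInv ℂ) = 1 := by
    rw [← map_mul, DeltaS_mul_inv, map_one]
  rw [coeffMap_uS, uPer, map_div₀, toLaurent_deltaScal, toLaurent_deltaScal, qExpand_one_apply, uS,
    div_eq_mul_inv, inv_eq_of_mul_eq_one_right h1]

theorem uS_mem (hN : N.Prime) : uS Kb N ∈ modularFunctionFieldBar N :=
  RED.mem_bar_of_mem_RN N (uHol N) (uHol_mem_RN N hN) (uPer N) (toMer_uPer N) _ (toLaurent_uPer N)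

/-- `u` as an element of `F_N`. -/
def uF (hN : N.Prime) : FN N := ⟨uS Kb N, uS_mem N hN⟩

theorem thetaK_uF (hN : N.Prime) :
    Fermat.Agent.GAL.AD.thetaK iotaK.toRingHom N (uF N hN) = algebraMap Hol Mer (uHol N) := by
  rw [GAL.thetaK_iotaK]
  exact RED.ThetaMer_eq_of_mem_RN N (uHol N) (uHol_mem_RN N hN) (uPer N) (toMer_uPer N) _
    (toLaurent_uPer N)

theorem uF_ne_zero (hN : N.Prime) : uF N hN ≠ 0 := by
  intro h
  have h1 : uS Kb N = 0 := congrArg Subtype.val h
  have h2 := uS_mul_uInvS Kb N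
  rw [h1, zero_mul] at h2
  exact zero_ne_one h2

theorem coe_inv_uF (hN : N.Prime) : (((uF N hN)⁻¹ : FN N) : LaurentSeries Kb) = uInvS Kb N := by
  rw [IntermediateField.coe_inv]
  exact inv_eq_of_mul_eq_one_right (uS_mul_uInvS Kb N)

theorem coe_inv_jF : (((jF N)⁻¹ : FN N) : LaurentSeries Kb) = jInvS Kb := by
  rw [IntermediateField.coe_inv]
  apply inv_eq_of_mul_eq_one_right
  rw [coe_jF, jBarSeries_eq, jqNModC_one]
  exact jqModC_mul_jInvS Kb

end

end Fermat.Agent.MAZ.Dict
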